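import Mathlib

/-!
# S41 / I / Abs : the abstract key step of Ihara's lemma for non-Eisenstein eigenvectors

`J : ℚ → ZMod p` is the "modular symbol" `x = g • 0 ↦ φ g`.  If `J` is `1`-periodic, invariant under
`x ↦ r² x`, satisfies the Hecke relation at the good primes `l` with eigenvalue `θ l`, and if there are
enough good primes with `θ l ≠ 2`, then `J = 0` on the fractions with denominator prime to `N r`.
-/

set_option autoImplicit false

namespace Fermat.Agent.S41.I

open Finset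

/-- a function on a finite commutative group, invariant under `u`, has sum `0` if the order of `u`
kills the target. -/
theorem sum_eq_zero_of_mul_invariant {G A : Type*} [CommGroup G] [Fintype G] [AddCommMonoid A]
    (u : G) (F : G → A) (hF : ∀ g, F (u * g) = F g) (hA : ∀ a : A, orderOf u • a = 0) :
    ∑ g, F g = 0 := by
  classical
  set H : Subgroup G := Subgroup.zpowers u with hH
  have hpow : ∀ (k : ℕ) (g : G), F (u ^ k * g) = F g := by
    intro k
    induction k with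
    | zero => intro g; simp
    | succ k ih => intro g; rw [pow_succ', mul_assoc, hF, ih]
  have hinv : ∀ h ∈ H, ∀ g, F (h * g) = F g := by
    intro h hh g
    rw [hH, ← mem_powers_iff_mem_zpowers] at hh
    obtain ⟨k, rfl⟩ := hh
    exact hpow k g
  rw [← Finset.sum_fiberwise (s := univ) (g := fun g : G => (g : G ⧸ H)) (f := F)]
  refine Finset.sum_eq_zero fun q _ => ?_
  obtain ⟨g0, rfl⟩ := QuotientGroup.mk_surjective q
  have h1 : ∀ g ∈ univ.filter (fun g : G => (g : G ⧸ H) = (g0 : G ⧸ H)), F g = F g0 := by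
    intro g hg
    rw [mem_filter] at hg
    have h2 : g0⁻¹ * g ∈ H := QuotientGroup.eq.1 hg.2.symm
    have := hinv _ h2 g0
    rwa [mul_comm, mul_inv_cancel_left] at this
  rw [Finset.sum_congr rfl h1, Finset.sum_const]
  have h3 : (univ.filter (fun g : G => (g : G ⧸ H) = (g0 : G ⧸ H))).card = orderOf u := by
    have h4 := QuotientGroup.card_preimage_mk H ({(g0 : G ⧸ H)} : Set (G ⧸ H))
    have h5 : Nat.card (({(g0 : G ⧸ H)} : Set (G ⧸ H)) : Type _) = 1 := by simp
    rw [h5, mul_one, Nat.card_zpowers] at h4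
    rw [← h4, Nat.card_eq_fintype_card, Fintype.card_subtype]
    congr 1
    ext g
    simp
  rw [h3]
  exact hA _

/-- the sum of a function on `ZMod l` invariant under an affine map `t ↦ v t + c` whose multiplier has
order divisible by `p` is its value at the fixed point. -/
theorem orbit_sum {l p : ℕ} [Fact l.Prime] [Fact p.Prime] (v c t0 : ZMod l) (hv0 : v ≠ 0)
    (hv : p ∣ orderOf v) (ht0 : v * t0 + c = t0) (h : ZMod l → ZMod p)
    (hinv : ∀ t, h (v * t + c) = h t) : ∑ t, h t = h t0 := by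
  classical
  set f : ZMod l → ZMod p := fun t => h (t + t0) with hf
  have hfv : ∀ t, f (v * t) = f t := by
    intro t
    have := hinv (t + t0)
    simp only [hf]
    rw [← this]
    congr 1
    rw [mul_add, add_assoc, ht0]
  have h1 : ∑ t, h t = ∑ t, f t := (Equiv.sum_comp (Equiv.addRight t0) h).symm
  rw [h1, ← Finset.add_sum_erase univ f (mem_univ 0)]
  have h2 : ∑ t ∈ univ.erase (0 : ZMod l), f t = ∑ w : (ZMod l)ˣ, f (w : ZMod l) := by
    symm
    refine Finset.sum_bij (fun w _ => (w : ZMod l)) ?_ ?_ ?_ ?_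
    · intro w _; simp
    · intro a _ b _ hab; exact Units.ext hab
    · intro b hb
      rw [mem_erase] at hb
      exact ⟨Units.mk0 b hb.1, mem_univ _, rfl⟩
    · intro w _; rfl
  rw [h2, sum_eq_zero_of_mul_invariant (Units.mk0 v hv0) (fun w : (ZMod l)ˣ => f (w : ZMod l))]
  · simp [hf]
  · intro g
    simp only [Units.val_mul, Units.val_mk0]
    exact hfv _
  · intro a
    have h3 : orderOf (Units.mk0 v hv0) = orderOf v := by
      rw [← orderOf_units]; rfl
    rw [h3]
    obtain ⟨k, hk⟩ := hv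
    rw [hk, mul_smul]
    simp

/-! ### denominators -/

theorem Abs_den_natCast_mul {M : ℕ} {x : ℚ} (hx : x.den.Coprime M) (n : ℕ) :
    ((n : ℚ) * x).den.Coprime M :=
  Nat.Coprime.coprime_dvd_left (by simpa using Rat.mul_den_dvd (n : ℚ) x) hx

theorem Abs_den_add_intCast {M : ℕ} {x : ℚ} (hx : x.den.Coprime M) (n : ℤ) :
    (x + (n : ℚ)).den.Coprime M :=
  Nat.Coprime.coprime_dvd_left (by simpa using Rat.add_den_dvd x (n : ℚ)) hx

theorem Abs_den_div_natCast {M : ℕ} {x : ℚ} (hx : x.den.Coprime M) {l : ℕ} (hl0 : 0 < l)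
    (hl : l.Coprime M) : (x / (l : ℚ)).den.Coprime M := by
  have h1 : (x / (l : ℚ)).den ∣ x.den * l := by
    have := Rat.mul_den_dvd x (l : ℚ)⁻¹
    rwa [Rat.inv_natCast_den_of_pos hl0, ← div_eq_mul_inv] at this
  exact Nat.Coprime.coprime_dvd_left h1 (Nat.Coprime.mul_left hx hl)

section main

variable {p N r : ℕ} [Fact p.Prime] (J : ℚ → ZMod p)

theorem Abs_per_nat (hper : ∀ x : ℚ, x.den.Coprime (N * r) → J (x + 1) = J x) (x : ℚ)
    (hx : x.den.Coprime (N * r)) (n : ℕ) : J (x + (n : ℚ)) = J x := by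
  induction n with
  | zero => simp
  | succ n ih =>
    have h1 := hper (x + (n : ℚ)) (by simpa using Abs_den_add_intCast hx (n : ℤ))
    rw [ih] at h1
    rw [← h1]
    congr 1
    push_cast
    ring

theorem Abs_per_int (hper : ∀ x : ℚ, x.den.Coprime (N * r) → J (x + 1) = J x) (x : ℚ)
    (hx : x.den.Coprime (N * r)) (n : ℤ) : J (x + (n : ℚ)) = J x := by
  obtain ⟨k, rfl | rfl⟩ := n.eq_nat_or_neg
  · simpa using Abs_per_nat J hper x hx k
  · have h1 := Abs_per_nat J hper (x + ((-(k : ℤ) : ℤ) : ℚ)) (Abs_den_add_intCast hx _) k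
    rw [← h1]
    congr 1
    push_cast
    ring

theorem Abs_inv_pow (hinv : ∀ x : ℚ, x.den.Coprime (N * r) → J ((r : ℚ) ^ 2 * x) = J x) (o : ℕ)
    (x : ℚ) (hx : x.den.Coprime (N * r)) : J ((r : ℚ) ^ (2 * o) * x) = J x := by
  induction o with
  | zero => simp
  | succ o ih =>
    have h1 := hinv ((r : ℚ) ^ (2 * o) * x)
      (by simpa using Abs_den_natCast_mul hx (r ^ (2 * o)))
    rw [ih] at h1
    rw [← h1]
    congr 1
    ring

theorem Abs_key_sum (hper : ∀ x : ℚ, x.den.Coprime (N * r) → J (x + 1) = J x)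
    (hinv : ∀ x : ℚ, x.den.Coprime (N * r) → J ((r : ℚ) ^ 2 * x) = J x)
    {l : ℕ} (hl : l.Prime) (hlM : l.Coprime (N * r)) (hlr : ¬ l ∣ r) (o : ℕ)
    (hord : p ∣ orderOf ((r : ZMod l) ^ (2 * o))) (x : ℚ) (hx : x.den.Coprime (N * r))
    (c a : ℤ) (hc : (c : ℚ) = ((r : ℚ) ^ (2 * o) - 1) * x) (ha : (a : ℚ) = ((l : ℚ) - 1) * x) :
    ∑ j ∈ Finset.range l, J ((x + (j : ℚ)) / (l : ℚ)) = J x := by
  haveI : Fact l.Prime := ⟨hl⟩
  have hl0 : (l : ℚ) ≠ 0 := by exact_mod_cast hl.ne_zero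
  set Hh : ℤ → ZMod p := fun j => J ((x + (j : ℚ)) / (l : ℚ)) with hHh
  have hG : ∀ j : ℤ, ((x + (j : ℚ)) / (l : ℚ)).den.Coprime (N * r) := fun j =>
    Abs_den_div_natCast (Abs_den_add_intCast hx j) hl.pos hlM
  have hHper : ∀ j n : ℤ, Hh (j + n * l) = Hh j := by
    intro j n
    have h1 := Abs_per_int J hper _ (hG j) n
    simp only [hHh]
    rw [← h1]
    congr 1
    push_cast
    field_simp
    ring
  set h : ZMod l → ZMod p := fun t => Hh (t.val : ℤ) with hh
  have hhH : ∀ j : ℤ, Hh j = h (j : ZMod l) := by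
    intro j
    simp only [hh]
    rw [ZMod.val_intCast]
    conv_lhs => rw [← Int.emod_add_mul_ediv j l, mul_comm (l : ℤ)]
    exact hHper _ _
  have hr0 : (r : ZMod l) ≠ 0 := by
    rw [Ne, ZMod.natCast_eq_zero_iff]
    exact hlr
  have hinv' : ∀ t : ZMod l, h ((r : ZMod l) ^ (2 * o) * t + (c : ZMod l)) = h t := by
    intro t
    have h1 : (r : ZMod l) ^ (2 * o) * t + (c : ZMod l)
        = (((r : ℤ) ^ (2 * o) * (t.val : ℤ) + c : ℤ) : ZMod l) := by
      push_cast
      rw [ZMod.natCast_zmod_val]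
    rw [h1, ← hhH]
    have h2 := Abs_inv_pow J hinv o _ (hG (t.val : ℤ))
    simp only [hh, hHh]
    rw [← h2]
    congr 1
    push_cast
    rw [hc]
    field_simp
    ring
  have hfix : (r : ZMod l) ^ (2 * o) * (a : ZMod l) + (c : ZMod l) = (a : ZMod l) := by
    have h1 : (r : ℤ) ^ (2 * o) * a + c = a + l * c := by
      have : ((r : ℚ) ^ (2 * o) * (a : ℚ) + (c : ℚ)) = (a : ℚ) + (l : ℚ) * (c : ℚ) := by
        rw [hc, ha]; ring
      exact_mod_cast this
    have h2 := congrArg (fun z : ℤ => (z : ZMod l)) h1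
    push_cast at h2
    rw [h2]
    simp
  have hsum := orbit_sum ((r : ZMod l) ^ (2 * o)) (c : ZMod l) (a : ZMod l) (pow_ne_zero _ hr0) hord
    hfix h hinv'
  have h3 : ∑ j ∈ Finset.range l, J ((x + (j : ℚ)) / (l : ℚ)) = ∑ t : ZMod l, h t := by
    refine Finset.sum_nbij' (fun j => (j : ZMod l)) (fun t => t.val) ?_ ?_ ?_ ?_ ?_
    · intro j _; exact mem_univ _
    · intro t _; exact mem_range.2 (ZMod.val_lt t)
    · intro j hj; exact ZMod.val_natCast_of_lt (mem_range.1 hj)
    · intro t _; exact ZMod.natCast_zmod_val t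
    · intro j hj
      simp only [hh, hHh]
      rw [ZMod.val_natCast_of_lt (mem_range.1 hj)]
      simp
  rw [h3, hsum, ← hhH]
  simp only [hHh]
  congr 1
  rw [ha]
  field_simp
  ring

/-- **Abstract Ihara lemma** (step (e)). -/
theorem abs_ihara (good : ℕ → Prop) (θ : ℕ → ZMod p)
    (hJ0 : J 0 = 0)
    (hper : ∀ x : ℚ, x.den.Coprime (N * r) → J (x + 1) = J x)
    (hinv : ∀ x : ℚ, x.den.Coprime (N * r) → J ((r : ℚ) ^ 2 * x) = J x)
    (hecke : ∀ l : ℕ, l.Prime → good l → ∀ x : ℚ, x.den.Coprime (N * r) →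
      J (l * x) + ∑ j ∈ Finset.range l, J ((x + j) / l)
        = θ l * J x + ∑ j ∈ Finset.range l, J ((j : ℚ) / l))
    (sel : ∀ m o : ℕ, 0 < m → 0 < o → ∃ l : ℕ, l.Prime ∧ good l ∧ ¬ l ∣ N * r * m ∧
      l % m = 1 % m ∧ p ∣ orderOf ((r : ZMod l) ^ (2 * o)) ∧ θ l ≠ 2) :
    ∀ x : ℚ, x.den.Coprime (N * r) → J x = 0 := by
  intro x hx
  set m := x.den with hm
  have hm0 : 0 < m := x.den_pos
  set o := Nat.totient m with ho
  have ho0 : 0 < o := Nat.totient_pos.2 hm0
  obtain ⟨l, hl, hgood, hlN, hlm, hord, hθ⟩ := sel m o hm0 ho0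
  have hlNr : ¬ l ∣ N * r := fun h => hlN (h.mul_right m)
  have hlM : l.Coprime (N * r) := (Nat.Prime.coprime_iff_not_dvd hl).2 hlNr
  have hlr : ¬ l ∣ r := fun h => hlNr (h.mul_left N)
  have hmx : (m : ℚ) * x = x.num := by
    rw [hm, mul_comm]; exact Rat.mul_den_eq_num x
  -- the integer `c`
  have hrm : Nat.Coprime r m := (Nat.Coprime.coprime_mul_left_right hx).symm
  have h1 : (m : ℤ) ∣ (r : ℤ) ^ (2 * o) - 1 := by
    have h2 : r ^ o ≡ 1 [MOD m] := Nat.ModEq.pow_totient hrm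
    have h3 : r ^ (2 * o) ≡ 1 [MOD m] := by
      have := h2.pow 2
      rwa [one_pow, ← pow_mul, mul_comm o 2] at this
    have h4 := (Nat.modEq_iff_dvd.1 h3.symm)
    exact_mod_cast h4
  obtain ⟨d, hd⟩ := h1
  have hc : ((d * x.num : ℤ) : ℚ) = ((r : ℚ) ^ (2 * o) - 1) * x := by
    have : ((r : ℚ) ^ (2 * o) - 1) = (m : ℚ) * (d : ℚ) := by exact_mod_cast hd
    rw [this]
    push_cast
    rw [← hmx]
    ring
  -- the integer `a`
  have h5 : (m : ℤ) ∣ (l : ℤ) - 1 := by
    have h6 : l ≡ 1 [MOD m] := hlm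
    have h7 := (Nat.modEq_iff_dvd.1 h6.symm)
    exact_mod_cast h7
  obtain ⟨s, hs⟩ := h5
  have ha : ((s * x.num : ℤ) : ℚ) = ((l : ℚ) - 1) * x := by
    have : ((l : ℚ) - 1) = (m : ℚ) * (s : ℚ) := by exact_mod_cast hs
    rw [this]
    push_cast
    rw [← hmx]
    ring
  have hk := hecke l hl hgood x hx
  have e1 : J (l * x) = J x := by
    have := Abs_per_int J hper x hx (s * x.num)
    rw [← this, ha]
    congr 1
    ring
  have e2 := Abs_key_sum J hper hinv hl hlM hlr o hord x hx _ _ hc ha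
  have e3 : ∑ j ∈ Finset.range l, J ((j : ℚ) / l) = 0 := by
    have := Abs_key_sum J hper hinv hl hlM hlr o hord 0 (by simp) 0 0 (by simp) (by simp)
    rw [hJ0] at this
    simpa using this
  rw [e1, e2, e3, add_zero] at hk
  have h8 : (2 - θ l) * J x = 0 := by linear_combination hk
  rcases mul_eq_zero.1 h8 with h9 | h9
  · exact absurd (sub_eq_zero.1 h9).symm hθ
  · exact h9

end main

end Fermat.Agent.S41.I
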